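import Fermat.Agent.H23.ES1A.Basic
import Fermat.Agent.H23.ES1A.Parts
import Fermat.Agent.H32.EsAMF

/-!
# P-ES1 / ES1A-MF (row 566): invariant holomorphic functions of moderate growth lie in `F`

Generic form, for an arbitrary modular model `X = (Γ, F, R, j)`, of `Fermat.Agent.H32.holModular`
and `Fermat.Agent.H32.modularFunction`:

`holModular : X.IsModular → DegreeStatement X → HolModularStatement X`,
`modularFunction : X.IsModular → DegreeStatement X → ModularFunctionStatement X`.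

The generic lemmas of `Fermat.Agent.H32.EsAMF` / `EsAField2` / `Fermat.Agent.H85.Gen16Coset` are
used verbatim.
-/

set_option autoImplicit false

noncomputable section

open UpperHalfPlane IntermediateField
open scoped MatrixGroups Manifold Topology

namespace Fermat.Agent.H5.ES1A

open Fermat.Agent.H44 Fermat.Agent.H85 Fermat.Agent.H23 Fermat.Agent.H32
open Fermat.Agent.H23.ES1A

/-- Holomorphic `Γ`-invariant functions all of whose translates have exponential growth. -/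
def MFClassX (X : Model) (h : ℍ → ℂ) : Prop :=
  MDiff h ∧ (∀ β ∈ X.Γ, ∀ z : ℍ, h (β • z) = h z) ∧
    ∀ γ : SL(2, ℤ), ExpGrowth (fun z => h (γ • z))

theorem MFClassX.add {X : Model} {h h' : ℍ → ℂ} (H : MFClassX X h) (H' : MFClassX X h') :
    MFClassX X (h + h') :=
  ⟨H.1.add H'.1, fun β hβ z => by
      rw [Pi.add_apply, Pi.add_apply, H.2.1 β hβ z, H'.2.1 β hβ z],
    fun γ => (H.2.2 γ).add (H'.2.2 γ)⟩

theorem MFClassX.mul {X : Model} {h h' : ℍ → ℂ} (H : MFClassX X h) (H' : MFClassX X h') :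
    MFClassX X (h * h') :=
  ⟨H.1.mul H'.1, fun β hβ z => by
      rw [Pi.mul_apply, Pi.mul_apply, H.2.1 β hβ z, H'.2.1 β hβ z],
    fun γ => (H.2.2 γ).mul (H'.2.2 γ)⟩

theorem mfClassX_const (X : Model) (c : ℂ) : MFClassX X (fun _ => c) :=
  ⟨mdifferentiable_const, fun _ _ _ => rfl, fun _ => expGrowth_const c⟩

/-- **Lemma C**: the series of a function of class `MFClassX X` satisfies a monic relation of
degree `μ = [SL(2,ℤ) : Γ]` over `ℂ[j]`. -/
theorem mfClassX_series_relation {X : Model} [X.Γ.FiniteIndex] {h : ℍ → ℂ}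
    {a jE : LaurentSeries ℂ} (hj : LaurentRel jfun jE) (hcl : MFClassX X h)
    (ha : LaurentRel h a) :
    ∃ P : ℕ → Polynomial ℂ, P (Nat.card (SL(2, ℤ) ⧸ X.Γ)) = 1 ∧
      ∑ i ∈ Finset.range (Nat.card (SL(2, ℤ) ⧸ X.Γ) + 1),
        Polynomial.aeval jE (P i) * a ^ i = 0 := by
  obtain ⟨P, hPμ, hP⟩ := exists_poly_relation (Γ := X.Γ) hcl.1 hcl.2.1 hcl.2.2
  refine ⟨P, hPμ, ?_⟩
  have h1 : LaurentRel
      (∑ i ∈ Finset.range (Nat.card (SL(2, ℤ) ⧸ X.Γ) + 1),
        (fun z => (P i).eval (jfun z)) * h ^ i)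
      (∑ i ∈ Finset.range (Nat.card (SL(2, ℤ) ⧸ X.Γ) + 1),
        Polynomial.aeval jE (P i) * a ^ i) :=
    LaurentRel.sum _ fun i _ => (laurentRel_aeval hj (P i)).mul (laurentRel_pow ha i)
  have h0 : (∑ i ∈ Finset.range (Nat.card (SL(2, ℤ) ⧸ X.Γ) + 1),
        (fun z => (P i).eval (jfun z)) * h ^ i) = 0 := by
    funext z
    rw [Finset.sum_apply, Pi.zero_apply, ← hP z]
    rfl
  rw [h0] at h1
  exact (h1.unique_right laurentRel_zero)

/-- The `ℂ`-subalgebra of `ℂ((q))` of `q`-expansions of functions of class `MFClassX X`. -/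
def mfSubalgebraX (X : Model) : Subalgebra ℂ (LaurentSeries ℂ) where
  carrier := {y | ∃ h : ℍ → ℂ, MFClassX X h ∧ LaurentRel h y}
  mul_mem' := by
    rintro a b ⟨h, hh, ha⟩ ⟨h', hh', hb⟩
    exact ⟨h * h', hh.mul hh', ha.mul hb⟩
  add_mem' := by
    rintro a b ⟨h, hh, ha⟩ ⟨h', hh', hb⟩
    exact ⟨h + h', hh.add hh', ha.add hb⟩
  algebraMap_mem' := fun c => ⟨fun _ => c, mfClassX_const X c, by
    rw [algebraMap_laurent_eq_C]
    exact laurentRel_const c⟩

theorem mem_mfSubalgebraX {X : Model} {y : LaurentSeries ℂ} :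
    y ∈ mfSubalgebraX X ↔ ∃ h : ℍ → ℂ, MFClassX X h ∧ LaurentRel h y := Iff.rfl

/-- **ES1A-MF** ([HOL]): a holomorphic `Γ`-invariant function of moderate growth at all cusps
represents an element of the function field. -/
theorem holModular (X : Model) (hX : X.IsModular) (hDeg : DegreeStatement X) :
    HolModularStatement X := by
  intro h hmd hinv hgr
  have hfi := hX.finiteIndex
  have hcl : MFClassX X h := ⟨hmd, hinv, fun γ => expGrowth_of_bound (hgr γ)⟩
  have hgr1 : ExpGrowth h := by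
    have := hcl.2.2 1
    simpa using this
  obtain ⟨x, hx⟩ := exists_laurentRel_of_T_invariant hmd
    (fun z => hinv _ hX.T_mem z) hgr1
  have hj : LaurentRel jfun ((X.j : ↥X.F) : LaurentSeries ℂ) := hX.j_rep
  have hA : ∀ a ∈ mfSubalgebraX X, ∃ P : ℕ → Polynomial ℂ,
      P (Nat.card (SL(2, ℤ) ⧸ X.Γ)) = 1 ∧
      ∑ i ∈ Finset.range (Nat.card (SL(2, ℤ) ⧸ X.Γ) + 1),
        Polynomial.aeval (algebraMap ↥X.F (LaurentSeries ℂ) X.j)
          (P i) * a ^ i = 0 := by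
    rintro a ⟨h', hh', ha⟩
    exact mfClassX_series_relation hj hh' ha
  have hfrac : ∀ l : ↥X.F, ∃ r ∈ mfSubalgebraX X, ∃ s ∈ mfSubalgebraX X,
      s ≠ 0 ∧ algebraMap ↥X.F (LaurentSeries ℂ) l * s = r := by
    intro l
    obtain ⟨r, s, hr, hs, hs0, hrs⟩ := hX.frac l
    obtain ⟨hr', hr1, hr2, hr3, hr4⟩ := hX.rep r hr
    obtain ⟨hs', hs1, hs2, hs3, hs4⟩ := hX.rep s hs
    refine ⟨(r : LaurentSeries ℂ), ⟨hr', ⟨hr2, hr3, fun γ => expGrowth_of_bound (hr4 γ)⟩, hr1⟩,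
      (s : LaurentSeries ℂ), ⟨hs', ⟨hs2, hs3, fun γ => expGrowth_of_bound (hs4 γ)⟩, hs1⟩, ?_, ?_⟩
    · intro h0
      exact hs0 (Subtype.ext h0)
    · rw [← hrs]
      rfl
  obtain ⟨l, hl⟩ := subalgebra_le_range_of_simple ℂ (L := ↥X.F) (E := LaurentSeries ℂ)
    X.j (Nat.card (SL(2, ℤ) ⧸ X.Γ))
    hDeg.2.1 hDeg.2.2 (mfSubalgebraX X) hA hfrac x ⟨h, hcl, hx⟩
  refine ⟨l, ?_⟩
  unfold Fermat.Agent.H23.ES1A.Rep
  have e : ((l : ↥X.F) : LaurentSeries ℂ) = x := hl
  rw [e]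
  exact hx

/-- **ES1A-MF** (A-MF, Kummer-side shape). -/
theorem modularFunction (X : Model) (hX : X.IsModular) (hDeg : DegreeStatement X) :
    ModularFunctionStatement X := by
  intro h hmd hinv hgr
  obtain ⟨f, hf⟩ := holModular X hX hDeg h hmd (fun β hβ z => hinv ⟨β, hβ⟩ z)
    (fun γ => by
      obtain ⟨M, C, Y, -, hb⟩ := hgr γ
      exact ⟨M, C, Y, hb⟩)
  exact ⟨f, hf⟩

end Fermat.Agent.H5.ES1A

end
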